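/-
S52 (3–5 switch), brick `QuadChar` (helper5).

A quadratic character of `G_ℚ` (open kernel) which is unramified at every prime `q ≠ 3`
(in the prelude's formalism `A.inertiaSubgroupIn ℚ`) is trivial on every element fixing `√-3`;
i.e. it is trivial or the mod-3 cyclotomic character.  No local analysis at `3`.
-/
import Mathlib
import Fermat.Agent.S13lib.UnramTop

set_option autoImplicit false
set_option linter.style.haveILetI false

noncomputable section

namespace Fermat.Agent.S52lib.QuadChar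

open NumberField

/-- `ℚ̄`. -/
abbrev Qbar : Type := AlgebraicClosure ℚ

/-- `G_ℚ`. -/
abbrev GQ : Type := Qbar ≃ₐ[ℚ] Qbar

theorem isGalois_Qbar' : IsGalois ℚ Qbar := by
  have h : (AlgebraicClosure.instAlgebra ℚ : Algebra ℚ Qbar) = DivisionRing.toRatAlgebra :=
    Subsingleton.elim _ _
  rw [← h]
  exact IsAlgClosure.isGalois ℚ _

/-- elements of `ℚ̄` fixed by all automorphisms are rational. -/
theorem exists_rat_of_fixed' {x : Qbar} (h : ∀ σ : GQ, σ x = x) :
    ∃ r : ℚ, algebraMap ℚ Qbar r = x := by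
  have := isGalois_Qbar'
  exact (InfiniteGalois.mem_range_algebraMap_iff_fixed x).mpr h

/-- `r² d ∈ ℤ` with `d` squarefree forces `r ∈ ℤ`. -/
theorem rat_int_of_sq_mul (r : ℚ) (d : ℤ) (hd : Squarefree d) (n : ℤ)
    (h : r * r * (d : ℚ) = (n : ℚ)) : ∃ z : ℤ, r = (z : ℚ) := by
  have hb : (r.den : ℚ) ≠ 0 := by exact_mod_cast r.den_nz
  have hr : r = (r.num : ℚ) / (r.den : ℚ) := (Rat.num_div_den r).symm
  -- a² d = n b²
  have hmul : r * (r.den : ℚ) = (r.num : ℚ) := Rat.mul_den_eq_num r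
  have h1 : (r.num * r.num * d : ℤ) = n * ((r.den : ℤ) * (r.den : ℤ)) := by
    have : ((r.num * r.num * d : ℤ) : ℚ) = ((n * ((r.den : ℤ) * (r.den : ℤ)) : ℤ) : ℚ) := by
      push_cast
      rw [← h, ← hmul]; ring
    exact_mod_cast this
  have hcop : IsCoprime (r.num) (r.den : ℤ) := by
    rw [Int.isCoprime_iff_gcd_eq_one]
    exact r.reduced
  have hcop2 : IsCoprime ((r.den : ℤ) * (r.den : ℤ)) (r.num * r.num) :=
    (hcop.symm.mul_left hcop.symm).mul_right (hcop.symm.mul_left hcop.symm)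
  have hdvd : ((r.den : ℤ) * (r.den : ℤ)) ∣ r.num * r.num * d := ⟨n, by rw [h1]; ring⟩
  have hdvd2 : ((r.den : ℤ) * (r.den : ℤ)) ∣ d := hcop2.dvd_of_dvd_mul_left hdvd
  have hunit : IsUnit (r.den : ℤ) := hd _ hdvd2
  have hden : r.den = 1 := by
    have := Int.isUnit_iff.mp hunit
    rcases this with h | h
    · exact_mod_cast h
    · exfalso; have : (0 : ℤ) ≤ (r.den : ℤ) := Int.natCast_nonneg _; omega
  exact ⟨r.num, by rw [hr, hden]; simp⟩

theorem even_of_sq_mul_three_mod_four (z T N d : ℤ) (hd : d % 4 = 3)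
    (h : z * z * d = T * T - 4 * N) : 2 ∣ z := by
  have h4 : ((z : ZMod 4) * (z : ZMod 4) * (d : ZMod 4)) = (T : ZMod 4) * (T : ZMod 4) := by
    have := congrArg (fun k : ℤ => (k : ZMod 4)) h
    simp only [Int.cast_mul, Int.cast_sub] at this
    rw [this]
    have : ((4 : ℤ) : ZMod 4) = 0 := by decide
    rw [this]; ring
  have hd4 : (d : ZMod 4) = 3 := by
    have : d = 4 * (d / 4) + 3 := by omega
    rw [this]; push_cast
    have : ((4 : ℤ) : ZMod 4) = 0 := by decide
    have h40 : (4 : ZMod 4) = 0 := by decide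
    rw [h40]; ring
  rw [hd4] at h4
  have key : ∀ a b : ZMod 4, a * a * 3 = b * b → a = 0 ∨ a = 2 := by decide
  rcases key _ _ h4 with h0 | h2
  · have := (ZMod.intCast_zmod_eq_zero_iff_dvd z 4).mp h0
    exact Dvd.dvd.trans (by norm_num) this
  · have h2' : ((z - 2 : ℤ) : ZMod 4) = 0 := by push_cast; rw [h2]; ring
    have := (ZMod.intCast_zmod_eq_zero_iff_dvd (z - 2) 4).mp h2'
    have : (2 : ℤ) ∣ z - 2 := Dvd.dvd.trans (by norm_num) this
    omega

section Sign

variable {G : Type*} [Group G] (h2 : ∀ a b : G, a ≠ 1 → b ≠ 1 → a = b) (χ : GQ →* G)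

include h2 in
theorem sq_eq_one (a : G) : a * a = 1 := by
  by_contra h
  by_cases ha : a = 1
  · exact h (by rw [ha, one_mul])
  · have := h2 (a * a) a h ha
    exact ha (by simpa using this)

include h2 in
/-- **Step 1.** If `χ φ ≠ 1` there is `β ≠ 0` in `ℚ̄` with `τ β = ± β` according to `χ τ`. -/
theorem exists_sign_element (hopen : IsOpen (χ.ker : Set GQ)) (φ : GQ) (hφ : χ φ ≠ 1) :
    ∃ β : Qbar, β ≠ 0 ∧ (∀ τ : GQ, χ τ = 1 → τ β = β) ∧ (∀ τ : GQ, χ τ ≠ 1 → τ β = -β) := by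
  have hclosed : IsClosed (χ.ker : Set GQ) := Subgroup.isClosed_of_isOpen _ hopen
  set M : IntermediateField ℚ Qbar := IntermediateField.fixedField χ.ker with hM
  have hfix : M.fixingSubgroup = χ.ker :=
    InfiniteGalois.fixingSubgroup_fixedField ⟨χ.ker, hclosed⟩
  -- an element of `M` outside `ℚ`
  have hex : ∃ α : Qbar, α ∈ M ∧ α ∉ (⊥ : IntermediateField ℚ Qbar) := by
    by_contra hcon
    push Not at hcon
    have hbot : M = ⊥ := le_antisymm (fun a ha => hcon a ha) bot_le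
    have : φ ∈ χ.ker := by
      rw [← hfix, hbot, IntermediateField.fixingSubgroup_bot]; exact Subgroup.mem_top φ
    exact hφ (MonoidHom.mem_ker.mp this)
  obtain ⟨α, hαM, hαQ⟩ := hex
  have hαfix : ∀ τ : GQ, χ τ = 1 → τ α = α := by
    intro τ hτ
    have : τ ∈ χ.ker := MonoidHom.mem_ker.mpr hτ
    exact (IntermediateField.mem_fixedField_iff _ α).mp hαM τ this
  have hφφ : χ (φ * φ) = 1 := by rw [map_mul]; exact sq_eq_one h2 _
  -- `φ α ≠ α`
  have hφα : φ α ≠ α := by
    intro h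
    apply hαQ
    obtain ⟨r, hr⟩ := exists_rat_of_fixed' (x := α) (fun τ => by
      by_cases hτ : χ τ = 1
      · exact hαfix τ hτ
      · have h1 : χ (φ⁻¹ * τ) = 1 := by
          rw [map_mul, map_inv, h2 (χ τ) (χ φ) hτ hφ, inv_mul_cancel]
        have h3 := hαfix _ h1
        have : τ α = φ ((φ⁻¹ * τ) α) := by
          rw [AlgEquiv.mul_apply]
          exact (AlgEquiv.apply_symm_apply φ (τ α)).symm
        rw [this, h3, h])
    rw [← hr]
    exact IntermediateField.algebraMap_mem _ r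
  refine ⟨α - φ α, sub_ne_zero.mpr (Ne.symm hφα), ?_, ?_⟩
  · intro τ hτ
    have h1 : χ (φ⁻¹ * τ * φ) = 1 := by
      rw [map_mul, map_mul, hτ, mul_one, map_inv, inv_mul_cancel]
    have h3 := hαfix _ h1
    have : τ (φ α) = φ ((φ⁻¹ * τ * φ) α) := by
      rw [AlgEquiv.mul_apply, AlgEquiv.mul_apply]
      exact (AlgEquiv.apply_symm_apply φ (τ (φ α))).symm
    rw [map_sub, hαfix τ hτ, this, h3]
  · intro τ hτ
    have h1 : χ (φ⁻¹ * τ) = 1 := by
      rw [map_mul, map_inv, h2 (χ τ) (χ φ) hτ hφ, inv_mul_cancel]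
    have h3 := hαfix _ h1
    have e1 : τ α = φ α := by
      have : τ α = φ ((φ⁻¹ * τ) α) := by
        rw [AlgEquiv.mul_apply]
        exact (AlgEquiv.apply_symm_apply φ (τ α)).symm
      rw [this, h3]
    have h4 : χ (τ * φ) = 1 := by
      rw [map_mul, h2 (χ τ) (χ φ) hτ hφ]; exact sq_eq_one h2 _
    have e2 : τ (φ α) = α := by
      have := hαfix _ h4
      rwa [AlgEquiv.mul_apply] at this
    rw [map_sub, e1, e2]; ring

end Sign

section Quad

variable {γ : Qbar} {d : ℤ} (hγ0 : γ ≠ 0) (hγ : γ * γ = (d : Qbar)) (φ : GQ) (hφ : φ γ = -γ)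

/-- the quadratic field `ℚ(γ)`. -/
abbrev quadField (γ : Qbar) : IntermediateField ℚ Qbar := IntermediateField.adjoin ℚ {γ}

theorem gamma_mem : γ ∈ quadField γ := IntermediateField.mem_adjoin_simple_self ℚ γ

include hγ in
theorem apply_gamma (τ : GQ) : τ γ = γ ∨ τ γ = -γ := by
  have h1 : τ γ * τ γ = γ * γ := by
    rw [← map_mul, hγ, map_intCast]
  have h2 : (τ γ - γ) * (τ γ + γ) = 0 := by linear_combination h1
  rcases mul_eq_zero.mp h2 with h | h
  · left; exact sub_eq_zero.mp h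
  · right; exact eq_neg_of_add_eq_zero_left h

/-- two automorphisms agreeing on `γ` agree on `ℚ(γ)`. -/
theorem eq_on_quadField (τ τ' : GQ) (h : τ γ = τ' γ) {u : Qbar} (hu : u ∈ quadField γ) :
    τ u = τ' u := by
  induction hu using IntermediateField.adjoin_induction with
  | mem x hx => rw [Set.mem_singleton_iff.mp hx]; exact h
  | algebraMap x => rw [AlgEquiv.commutes, AlgEquiv.commutes]
  | add x y _ _ hx hy => rw [map_add, map_add, hx, hy]
  | inv x _ hx => rw [map_inv₀, map_inv₀, hx]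
  | mul x y _ _ hx hy => rw [map_mul, map_mul, hx, hy]

include hφ in
theorem phi_mem {u : Qbar} (hu : u ∈ quadField γ) : φ u ∈ quadField γ := by
  induction hu using IntermediateField.adjoin_induction with
  | mem x hx =>
    rw [Set.mem_singleton_iff.mp hx, hφ]; exact neg_mem gamma_mem
  | algebraMap x => rw [AlgEquiv.commutes]; exact IntermediateField.algebraMap_mem _ x
  | add x y _ _ hx hy => rw [map_add]; exact add_mem hx hy
  | inv x _ hx => rw [map_inv₀]; exact inv_mem hx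
  | mul x y _ _ hx hy => rw [map_mul]; exact mul_mem hx hy

include hφ in
theorem phi_phi {u : Qbar} (hu : u ∈ quadField γ) : φ (φ u) = u := by
  have h : (φ * φ) γ = (1 : GQ) γ := by
    rw [AlgEquiv.mul_apply, hφ, map_neg, hφ, neg_neg, AlgEquiv.one_apply]
  have := eq_on_quadField (φ * φ) 1 h hu
  rwa [AlgEquiv.mul_apply, AlgEquiv.one_apply] at this

/-- an integral element of `ℚ̄` fixed by all automorphisms is an integer. -/
theorem exists_int_of_fixed_integral {x : Qbar} (hfix : ∀ σ : GQ, σ x = x)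
    (hint : IsIntegral ℤ x) : ∃ n : ℤ, (n : Qbar) = x := by
  obtain ⟨r, hr⟩ := exists_rat_of_fixed' hfix
  have hr' : IsIntegral ℤ r := by
    rw [← hr] at hint
    exact (isIntegral_algebraMap_iff (algebraMap ℚ Qbar).injective).mp hint
  obtain ⟨n, hn⟩ := (IsIntegrallyClosed.isIntegral_iff (R := ℤ) (K := ℚ)).mp hr'
  refine ⟨n, ?_⟩
  rw [← hr, ← hn]
  simp

include hγ0 hγ hφ in
/-- **Key lemma.**  For an algebraic integer `u ∈ ℚ(γ)` (`γ² = d` squarefree), `φ u - u = z γ`
with `z ∈ ℤ`, and `z` is even when `d ≡ 3 mod 4`. -/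
theorem key (hd : Squarefree d) {u : Qbar} (hu : u ∈ quadField γ) (hint : IsIntegral ℤ u) :
    ∃ z : ℤ, φ u - u = (z : Qbar) * γ ∧ (d % 4 = 3 → 2 ∣ z) := by
  have hφu : φ u ∈ quadField γ := phi_mem φ hφ hu
  have hφint : IsIntegral ℤ (φ u) := hint.map φ
  -- behaviour of an arbitrary `τ` on `u`, `φ u`
  have hτ : ∀ τ : GQ, (τ γ = γ ∧ τ u = u ∧ τ (φ u) = φ u) ∨
      (τ γ = -γ ∧ τ u = φ u ∧ τ (φ u) = u) := by
    intro τ
    rcases apply_gamma hγ τ with h | h
    · left
      have h1 : τ γ = (1 : GQ) γ := by rw [h, AlgEquiv.one_apply]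
      refine ⟨h, ?_, ?_⟩
      · have := eq_on_quadField τ 1 h1 hu
        rwa [AlgEquiv.one_apply] at this
      · have := eq_on_quadField τ 1 h1 hφu
        rwa [AlgEquiv.one_apply] at this
    · right
      have h1 : τ γ = φ γ := by rw [h, hφ]
      refine ⟨h, eq_on_quadField τ φ h1 hu, ?_⟩
      rw [eq_on_quadField τ φ h1 hφu, phi_phi φ hφ hu]
  -- the trace and the norm are integers
  obtain ⟨T, hT⟩ := exists_int_of_fixed_integral (x := u + φ u) (fun τ => by
    rcases hτ τ with ⟨-, h1, h2⟩ | ⟨-, h1, h2⟩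
    · rw [map_add, h1, h2]
    · rw [map_add, h1, h2, add_comm]) (hint.add hφint)
  obtain ⟨N, hN⟩ := exists_int_of_fixed_integral (x := u * φ u) (fun τ => by
    rcases hτ τ with ⟨-, h1, h2⟩ | ⟨-, h1, h2⟩
    · rw [map_mul, h1, h2]
    · rw [map_mul, h1, h2, mul_comm]) (hint.mul hφint)
  -- `(φ u - u) / γ` is rational
  obtain ⟨r, hr⟩ := exists_rat_of_fixed' (x := (φ u - u) / γ) (fun τ => by
    rcases hτ τ with ⟨h0, h1, h2⟩ | ⟨h0, h1, h2⟩
    · rw [map_div₀, map_sub, h0, h1, h2]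
    · rw [map_div₀, map_sub, h0, h1, h2, div_neg, ← neg_div, neg_sub])
  have hr1 : φ u - u = algebraMap ℚ Qbar r * γ := by
    rw [hr, div_mul_cancel₀ _ hγ0]
  -- `r² d = T² - 4 N`
  have hsq : r * r * (d : ℚ) = ((T * T - 4 * N : ℤ) : ℚ) := by
    apply (algebraMap ℚ Qbar).injective
    have e1 : (φ u - u) * (φ u - u) = (u + φ u) * (u + φ u) - 4 * (u * φ u) := by ring
    rw [hr1, ← hT, ← hN] at e1
    have e2 : algebraMap ℚ Qbar r * γ * (algebraMap ℚ Qbar r * γ) =
        algebraMap ℚ Qbar r * algebraMap ℚ Qbar r * (γ * γ) := by ring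
    rw [e2, hγ] at e1
    simp only [map_mul, map_intCast, map_sub, Int.cast_mul, Int.cast_sub, Int.cast_ofNat,
      map_ofNat]
    exact e1
  obtain ⟨z, hz⟩ := rat_int_of_sq_mul r d hd _ hsq
  refine ⟨z, ?_, ?_⟩
  · rw [hr1, hz]; simp
  · intro hd4
    apply even_of_sq_mul_three_mod_four z T N d hd4
    have : ((z * z * d : ℤ) : ℚ) = ((T * T - 4 * N : ℤ) : ℚ) := by
      rw [← hsq, hz]; push_cast; ring
    exact_mod_cast this

end Quad

section Quad2
variable {γ : Qbar} {d : ℤ} (hγ0 : γ ≠ 0) (hγ : γ * γ = (d : Qbar)) (φ : GQ) (hφ : φ γ = -γ)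

include hγ in
theorem isIntegral_gamma : IsIntegral ℤ γ := by
  refine ⟨Polynomial.X ^ 2 - Polynomial.C d, Polynomial.monic_X_pow_sub_C d (by norm_num), ?_⟩
  rw [Polynomial.eval₂_sub, Polynomial.eval₂_pow, Polynomial.eval₂_X, Polynomial.eval₂_C, pow_two,
    hγ]
  simp

include hγ in
theorem isGalois_quadField : IsGalois ℚ (quadField γ) := by
  have := isGalois_Qbar'
  have hn : Normal ℚ (quadField γ) := by
    change @Normal ℚ (quadField γ) _ _ (IntermediateField.algebra' _)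
    rw [IntermediateField.normal_iff_forall_map_le']
    intro σ
    rw [IntermediateField.adjoin_map, Set.image_singleton, IntermediateField.adjoin_le_iff]
    intro x hx
    rw [Set.mem_singleton_iff] at hx
    rw [hx]
    rcases apply_gamma hγ σ with h | h
    · show σ γ ∈ quadField γ
      rw [h]; exact gamma_mem
    · show σ γ ∈ quadField γ
      rw [h]; exact neg_mem gamma_mem
  exact ⟨⟩

include hγ in
theorem finiteDimensional_quadField : FiniteDimensional ℚ (quadField γ) :=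
  IntermediateField.adjoin.finiteDimensional (isIntegral_gamma hγ).tower_top

open Fermat.Agent.ExtVan in
include hγ0 hγ hφ in
/-- **Step 3.** A prime `q` dividing `d`, or `q = 2` when `d ≡ 3 mod 4`, has an inertia element
(in the prelude's sense) negating `γ`. -/
theorem exists_inertia_neg (hd : Squarefree d) {q : ℕ} (hq : q.Prime)
    (hqd : (q : ℤ) ∣ d ∨ (q = 2 ∧ d % 4 = 3)) :
    ∃ (A : ValuationSubring Qbar) (τ : GQ), A.LiesOverPrime q ∧ τ ∈ A.inertiaSubgroupIn ℚ ∧
      τ γ = -γ := by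
  haveI := isGalois_quadField hγ
  haveI := finiteDimensional_quadField hγ
  haveI hNF : NumberField (quadField γ) := ⟨⟩
  set M : IntermediateField ℚ Qbar := quadField γ with hM
  -- `γ` as an element of `𝓞 M`
  let γM : M := ⟨γ, gamma_mem⟩
  have hγMint : IsIntegral ℤ γM := by
    have h := isIntegral_gamma hγ
    exact (isIntegral_algebraMap_iff (algebraMap M Qbar).injective).mp h
  let γO : 𝓞 M := ⟨γM, hγMint⟩
  have hγO : ((γO : M) : Qbar) = γ := rfl
  -- a prime of `𝓞 M` over `q`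
  haveI hqprime : (Ideal.span {(q : ℤ)}).IsPrime :=
    (Ideal.span_singleton_prime (by exact_mod_cast hq.ne_zero)).mpr (Nat.prime_iff_prime_int.mp hq)
  obtain ⟨Q, -, hQprime, hQq⟩ :=
    Ideal.exists_ideal_over_prime_of_isIntegral (Ideal.span {(q : ℤ)}) (⊥ : Ideal (𝓞 M)) (by
      rw [Ideal.comap_bot_of_injective _ (FaithfulSMul.algebraMap_injective ℤ (𝓞 M))]
      exact bot_le)
  haveI := hQprime
  have hqQ : (q : 𝓞 M) ∈ Q := by
    have h1 : (q : ℤ) ∈ Q.comap (algebraMap ℤ (𝓞 M)) := by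
      rw [hQq]; exact Ideal.mem_span_singleton_self _
    rw [Ideal.mem_comap] at h1
    simpa using h1
  set σ : M ≃ₐ[ℚ] M := AlgEquiv.restrictNormalHom M φ with hσ
  have hσcoe : ∀ x : M, ((σ x : M) : Qbar) = φ (x : Qbar) := fun x =>
    AlgEquiv.restrictNormal_commutes φ M x
  have hσQ : ∀ x : 𝓞 M, σ • x - x ∈ Q := by
    intro x
    have hxint : IsIntegral ℤ ((x : M) : Qbar) := by
      have := RingOfIntegers.isIntegral_coe x
      exact this.map (IsScalarTower.toAlgHom ℤ M Qbar)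
    obtain ⟨z, hz, hz2⟩ := key hγ0 hγ φ hφ hd (x : M).2 hxint
    have heq : σ • x - x = (z : 𝓞 M) * γO := by
      apply RingOfIntegers.ext
      apply Subtype.ext
      push_cast
      rw [AlgEquiv.smul_def, hσcoe, hz]
      simp [hγO]
    rw [heq]
    rcases hqd with hqd | ⟨hq2, hd4⟩
    · -- `γO ∈ Q`
      apply Q.mul_mem_left
      have hsq : γO * γO = (d : 𝓞 M) := by
        apply RingOfIntegers.ext
        apply Subtype.ext
        push_cast
        show γ * γ = _
        rw [hγ]; simp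
      have hdQ : (d : 𝓞 M) ∈ Q := by
        obtain ⟨k, hk⟩ := hqd
        rw [hk]; push_cast
        exact Q.mul_mem_right _ hqQ
      rw [← hsq] at hdQ
      exact (hQprime.mem_or_mem hdQ).elim id id
    · obtain ⟨k, hk⟩ := hz2 hd4
      rw [hk]; push_cast
      rw [mul_assoc]
      apply Q.mul_mem_right
      have : ((2 : ℕ) : 𝓞 M) ∈ Q := hq2 ▸ hqQ
      simpa using this
  obtain ⟨A, τ, hA, hτ, hτσ⟩ := InertiaLift.exists_inertia_lift M Q hq.ne_zero hqQ σ hσQ
  refine ⟨A, τ, hA, hτ, ?_⟩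
  have h1 := AlgEquiv.restrictNormal_commutes τ M γM
  have h2 : (AlgEquiv.restrictNormal τ M) γM = σ γM := by
    have := congrArg (fun f : M ≃ₐ[ℚ] M => f γM) hτσ
    exact this
  rw [h2] at h1
  have h3 := hσcoe γM
  have : τ γ = φ γ := by
    have e : algebraMap M Qbar γM = γ := rfl
    rw [e] at h1
    rw [← h1]; exact h3
  rw [this, hφ]

end Quad2

/-- squarefree decomposition of a nonzero integer. -/
theorem exists_squarefree_decomp (N : ℤ) (hN : N ≠ 0) :
    ∃ c d : ℤ, c ≠ 0 ∧ Squarefree d ∧ N = c * c * d := by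
  obtain ⟨e, c, hce, he⟩ := Nat.sq_mul_squarefree N.natAbs
  have hc0 : c ≠ 0 := by
    rintro rfl
    have : N.natAbs = 0 := by rw [← hce]; simp
    exact hN (Int.natAbs_eq_zero.mp this)
  have hsign : IsUnit N.sign := by
    rcases lt_trichotomy N 0 with h | h | h
    · rw [Int.sign_eq_neg_one_of_neg h]; exact isUnit_one.neg
    · exact absurd h hN
    · rw [Int.sign_eq_one_of_pos h]; exact isUnit_one
  refine ⟨c, N.sign * e, by exact_mod_cast hc0, ?_, ?_⟩
  · rw [← Int.squarefree_natAbs, Int.natAbs_mul, Int.natAbs_of_isUnit hsign, one_mul,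
      Int.natAbs_natCast]
    exact he
  · have h1 : (N.natAbs : ℤ) = (c : ℤ) * c * e := by
      rw [← hce]; push_cast; ring
    calc N = N.sign * (N.natAbs : ℤ) := (Int.sign_mul_natAbs N).symm
      _ = (c : ℤ) * c * (N.sign * e) := by rw [h1]; ring

/-- **Step 4.** normalisation of a sign element to a square root of a squarefree integer. -/
theorem exists_normalised {β : Qbar} (hβ0 : β ≠ 0) (hβ : ∀ τ : GQ, τ β = β ∨ τ β = -β) :
    ∃ (ρ : ℚ) (d : ℤ), ρ ≠ 0 ∧ Squarefree d ∧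
      (algebraMap ℚ Qbar ρ * β) * (algebraMap ℚ Qbar ρ * β) = (d : Qbar) := by
  obtain ⟨D, hD⟩ := exists_rat_of_fixed' (x := β * β) (fun τ => by
    rcases hβ τ with h | h
    · rw [map_mul, h]
    · rw [map_mul, h]; ring)
  have hD0 : D ≠ 0 := by
    rintro rfl
    rw [map_zero] at hD
    exact hβ0 (mul_self_eq_zero.mp hD.symm)
  have hN0 : D.num * (D.den : ℤ) ≠ 0 :=
    mul_ne_zero (Rat.num_ne_zero.mpr hD0) (by exact_mod_cast D.den_nz)
  obtain ⟨c, d, hc0, hd, hN⟩ := exists_squarefree_decomp _ hN0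
  have hcQ : (c : ℚ) ≠ 0 := by exact_mod_cast hc0
  have hbQ : (D.den : ℚ) ≠ 0 := by exact_mod_cast D.den_nz
  refine ⟨(D.den : ℚ) / (c : ℚ), d, div_ne_zero hbQ hcQ, hd, ?_⟩
  have e1 : algebraMap ℚ Qbar ((D.den : ℚ) / (c : ℚ)) * β *
      (algebraMap ℚ Qbar ((D.den : ℚ) / (c : ℚ)) * β) =
      algebraMap ℚ Qbar (((D.den : ℚ) / (c : ℚ)) * ((D.den : ℚ) / (c : ℚ)) * D) := by
    rw [map_mul, map_mul, hD]; ring
  rw [e1]
  have e2 : ((D.den : ℚ) / (c : ℚ)) * ((D.den : ℚ) / (c : ℚ)) * D = (d : ℚ) := by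
    have hmul : D * (D.den : ℚ) = (D.num : ℚ) := Rat.mul_den_eq_num D
    have hNQ : (D.num : ℚ) * (D.den : ℚ) = (c : ℚ) * c * d := by exact_mod_cast hN
    rw [div_mul_div_comm, div_mul_eq_mul_div, div_eq_iff (mul_ne_zero hcQ hcQ)]
    linear_combination (D.den : ℚ) * hmul + hNQ
  rw [e2]; simp

/-- a squarefree integer whose only prime divisor is `3` is `±1` or `±3`. -/
theorem eq_of_squarefree_of_prime_dvd (d : ℤ) (hd : Squarefree d)
    (h : ∀ q : ℕ, q.Prime → (q : ℤ) ∣ d → q = 3) : d = 1 ∨ d = -1 ∨ d = 3 ∨ d = -3 := by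
  have hn : Squarefree d.natAbs := Int.squarefree_natAbs.mpr hd
  have hp : ∀ q : ℕ, q.Prime → q ∣ d.natAbs → q = 3 := fun q hq hqd =>
    h q hq (Int.natCast_dvd.mpr hqd)
  have hcases : d.natAbs = 1 ∨ d.natAbs = 3 := by
    by_cases h3 : 3 ∣ d.natAbs
    · right
      obtain ⟨m, hm⟩ := h3
      have hm1 : m = 1 := by
        rw [Nat.eq_one_iff_not_exists_prime_dvd]
        intro q hq hqm
        have hq3 : q = 3 := hp q hq (hm ▸ Dvd.dvd.mul_left hqm 3)
        subst hq3
        obtain ⟨k, hk⟩ := hqm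
        have : 3 * 3 ∣ d.natAbs := ⟨k, by rw [hm, hk]; ring⟩
        have := hn 3 this
        exact absurd (Nat.isUnit_iff.mp this) (by norm_num)
      rw [hm, hm1]
    · left
      rw [Nat.eq_one_iff_not_exists_prime_dvd]
      intro q hq hqd
      have := hp q hq hqd
      subst this
      exact h3 hqd
  rcases hcases with h1 | h1
  · rcases Int.natAbs_eq d with h' | h' <;> rw [h1] at h' <;> simp at h' <;> omega
  · rcases Int.natAbs_eq d with h' | h' <;> rw [h1] at h' <;> simp at h' <;> omega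

/-- **A quadratic character of `G_ℚ` unramified outside `3` is trivial on every element fixing
`√-3`** (so it is trivial or the mod `3` cyclotomic character). -/
theorem apply_eq_one_of_unramified_outside_three {G : Type*} [Group G]
    (h2 : ∀ a b : G, a ≠ 1 → b ≠ 1 → a = b) (χ : GQ →* G)
    (hopen : IsOpen (χ.ker : Set GQ))
    (hunr : ∀ q : ℕ, q.Prime → q ≠ 3 → ∀ A : ValuationSubring Qbar, A.LiesOverPrime q →
      ∀ σ ∈ A.inertiaSubgroupIn ℚ, χ σ = 1)
    (φ : GQ) (s : Qbar) (hs : s * s = -3) (hφs : φ s = s) : χ φ = 1 := by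
  by_contra hne
  obtain ⟨β, hβ0, hβ1, hβ2⟩ := exists_sign_element h2 χ hopen φ hne
  obtain ⟨ρ, d, hρ0, hd, hγ⟩ := exists_normalised hβ0 (fun τ => by
    by_cases hτ : χ τ = 1
    · exact Or.inl (hβ1 τ hτ)
    · exact Or.inr (hβ2 τ hτ))
  set γ : Qbar := algebraMap ℚ Qbar ρ * β with hγdef
  have hγ0 : γ ≠ 0 := mul_ne_zero (by simpa using hρ0) hβ0
  have hγ1 : ∀ τ : GQ, χ τ = 1 → τ γ = γ := fun τ hτ => by
    rw [hγdef, map_mul, AlgEquiv.commutes, hβ1 τ hτ]
  have hγ2 : ∀ τ : GQ, χ τ ≠ 1 → τ γ = -γ := fun τ hτ => by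
    rw [hγdef, map_mul, AlgEquiv.commutes, hβ2 τ hτ]; ring
  have hφ : φ γ = -γ := hγ2 φ hne
  have hneg : γ ≠ -γ := by
    intro h
    have : (2 : Qbar) * γ = 0 := by linear_combination h
    rcases mul_eq_zero.mp this with h' | h'
    · exact two_ne_zero h'
    · exact hγ0 h'
  -- no prime `q ≠ 3` is "ramified in `ℚ(γ)`"
  have hq : ∀ q : ℕ, q.Prime → q ≠ 3 → ¬ ((q : ℤ) ∣ d ∨ (q = 2 ∧ d % 4 = 3)) := by
    intro q hq hq3 hqd
    obtain ⟨A, τ, hA, hτ, hτγ⟩ := exists_inertia_neg hγ0 hγ φ hφ hd hq hqd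
    have h1 := hγ1 τ (hunr q hq hq3 A hA τ hτ)
    exact hneg (h1.symm.trans hτγ)
  have hd4 : d % 4 ≠ 3 := fun h => hq 2 Nat.prime_two (by norm_num) (Or.inr ⟨rfl, h⟩)
  rcases eq_of_squarefree_of_prime_dvd d hd (fun q hq' hqd => by
    by_contra h3
    exact hq q hq' h3 (Or.inl hqd)) with h | h | h | h
  · -- `d = 1`
    rw [h] at hγ
    have h1 : (γ - 1) * (γ + 1) = 0 := by
      have : ((1 : ℤ) : Qbar) = 1 := by simp
      linear_combination hγ + this
    have hφγ : φ γ = γ := by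
      rcases mul_eq_zero.mp h1 with h' | h'
      · rw [sub_eq_zero.mp h', map_one]
      · rw [eq_neg_of_add_eq_zero_left h', map_neg, map_one]
    exact hneg (hφγ.symm.trans hφ)
  · exact hd4 (by rw [h]; rfl)
  · exact hd4 (by rw [h]; rfl)
  · -- `d = -3`
    rw [h] at hγ
    have h1 : (γ - s) * (γ + s) = 0 := by
      have : ((-3 : ℤ) : Qbar) = -3 := by simp
      linear_combination hγ + this - hs
    have hφγ : φ γ = γ := by
      rcases mul_eq_zero.mp h1 with h' | h'
      · rw [sub_eq_zero.mp h', hφs]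
      · rw [eq_neg_of_add_eq_zero_left h', map_neg, hφs]
    exact hneg (hφγ.symm.trans hφ)


/-- the hypothesis `h2` for the group `(ZMod 3)ˣ`. -/
theorem zmod_three_units_eq (a b : (ZMod 3)ˣ) (ha : a ≠ 1) (hb : b ≠ 1) : a = b := by
  revert a b
  decide

/-- the version for characters with values in `(ZMod 3)ˣ`. -/
theorem apply_eq_one_of_unramified_outside_three_zmod (χ : GQ →* (ZMod 3)ˣ)
    (hopen : IsOpen (χ.ker : Set GQ))
    (hunr : ∀ q : ℕ, q.Prime → q ≠ 3 → ∀ A : ValuationSubring Qbar, A.LiesOverPrime q →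
      ∀ σ ∈ A.inertiaSubgroupIn ℚ, χ σ = 1)
    (φ : GQ) (s : Qbar) (hs : s * s = -3) (hφs : φ s = s) : χ φ = 1 :=
  apply_eq_one_of_unramified_outside_three zmod_three_units_eq χ hopen hunr φ s hs hφs

end Fermat.Agent.S52lib.QuadChar
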