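/-
S52 (3–5 switch), brick `QuadChar` (helper5), second file.

A Frobenius element at a prime `r ≡ 1 mod 3` fixes `√-3`; hence a quadratic character of `G_ℚ`
unramified outside `3` is trivial at such a Frobenius element.
-/
import Mathlib
import Fermat.Agent.S29lib.X.Cyclo
import Fermat.Agent.S52lib.QuadChar.Three

set_option autoImplicit false

noncomputable section

namespace Fermat.Agent.S52lib.QuadChar

/-- the mod `3` cyclotomic character is trivial at a Frobenius element at `r ≡ 1 mod 3`. -/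
theorem chi_three_of_isFrobeniusAt {r : ℕ} (hr : r.Prime) (hr3 : r % 3 = 1)
    {A : ValuationSubring Qbar} (hA : A.LiesOverPrime r) {φ : GQ} (hφ : A.IsFrobeniusAt φ r) :
    haveI : Fact (Nat.Prime 3) := ⟨Nat.prime_three⟩
    Fermat.Agent.ExtVan.chi 3 φ = 1 := by
  haveI : Fact (Nat.Prime 3) := ⟨Nat.prime_three⟩
  have hr3' : r ≠ 3 := by omega
  have h1 := Fermat.Agent.S29lib.X.chi_of_isFrobeniusAt (p := 3) hr hr3' hA hφ
  rw [h1]
  have : ((r : ℕ) : ZMod 3) = ((1 : ℕ) : ZMod 3) :=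
    (ZMod.natCast_eq_natCast_iff _ _ _).mpr (by show r % 3 = 1 % 3; rw [hr3])
  simpa using this

/-- a Frobenius element at a prime `r ≡ 1 mod 3` fixes every square root of `-3`. -/
theorem frobenius_fixes_sqrt_neg_three {r : ℕ} (hr : r.Prime) (hr3 : r % 3 = 1)
    {A : ValuationSubring Qbar} (hA : A.LiesOverPrime r) {φ : GQ} (hφ : A.IsFrobeniusAt φ r)
    (s : Qbar) (hs : s * s = -3) : φ s = s := by
  haveI : Fact (Nat.Prime 3) := ⟨Nat.prime_three⟩
  have hχ := chi_three_of_isFrobeniusAt hr hr3 hA hφ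
  set ω : Qbar := Fermat.Agent.ExtVan.zetaQ 3 with hω
  have hprim : IsPrimitiveRoot ω 3 := Fermat.Agent.ExtVan.zetaQ_spec 3
  have hφω : φ ω = ω := (Fermat.Agent.ExtVan.chi_eq_one_iff φ hprim).mp hχ
  have hsum : ω ^ 2 + ω + 1 = 0 := by
    have h := hprim.geom_sum_eq_zero (by norm_num)
    simp only [Finset.sum_range_succ, Finset.sum_range_zero, pow_zero, pow_one, zero_add] at h
    linear_combination h
  have h1 : (s - (2 * ω + 1)) * (s + (2 * ω + 1)) = 0 := by
    linear_combination hs - 4 * hsum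
  rcases mul_eq_zero.mp h1 with h' | h'
  · rw [sub_eq_zero.mp h', map_add, map_mul, map_one, map_ofNat, hφω]
  · rw [eq_neg_of_add_eq_zero_left h', map_neg, map_add, map_mul, map_one, map_ofNat, hφω]

/-- **Corollary.**  A quadratic character of `G_ℚ` unramified outside `3` is trivial at every
Frobenius element at a prime `r ≡ 1 mod 3`. -/
theorem apply_eq_one_of_isFrobeniusAt {G : Type*} [Group G]
    (h2 : ∀ a b : G, a ≠ 1 → b ≠ 1 → a = b) (χ : GQ →* G)
    (hopen : IsOpen (χ.ker : Set GQ))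
    (hunr : ∀ q : ℕ, q.Prime → q ≠ 3 → ∀ A : ValuationSubring Qbar, A.LiesOverPrime q →
      ∀ σ ∈ A.inertiaSubgroupIn ℚ, χ σ = 1)
    {r : ℕ} (hr : r.Prime) (hr3 : r % 3 = 1)
    {A : ValuationSubring Qbar} (hA : A.LiesOverPrime r) {φ : GQ} (hφ : A.IsFrobeniusAt φ r) :
    χ φ = 1 := by
  obtain ⟨s, hs⟩ : ∃ s : Qbar, s * s = -3 := by
    obtain ⟨s, hs⟩ := IsAlgClosed.exists_pow_nat_eq (-3 : Qbar) (n := 2) (by norm_num)
    exact ⟨s, by rw [← hs]; ring⟩
  exact apply_eq_one_of_unramified_outside_three h2 χ hopen hunr φ s hs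
    (frobenius_fixes_sqrt_neg_three hr hr3 hA hφ s hs)

/-- the `(ZMod 3)ˣ`-valued version. -/
theorem apply_eq_one_of_isFrobeniusAt_zmod (χ : GQ →* (ZMod 3)ˣ)
    (hopen : IsOpen (χ.ker : Set GQ))
    (hunr : ∀ q : ℕ, q.Prime → q ≠ 3 → ∀ A : ValuationSubring Qbar, A.LiesOverPrime q →
      ∀ σ ∈ A.inertiaSubgroupIn ℚ, χ σ = 1)
    {r : ℕ} (hr : r.Prime) (hr3 : r % 3 = 1)
    {A : ValuationSubring Qbar} (hA : A.LiesOverPrime r) {φ : GQ} (hφ : A.IsFrobeniusAt φ r) :
    χ φ = 1 :=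
  apply_eq_one_of_isFrobeniusAt zmod_three_units_eq χ hopen hunr hr hr3 hA hφ

end Fermat.Agent.S52lib.QuadChar
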