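/-
S52 (3–5 switch), brick `QuadChar` (helper5), third file: discharge of helper4's input
`Irr3.QuadCharThree`, and the resulting unconditional local criterion for irreducibility mod `3`.
-/
import Mathlib
import Fermat.Agent.S52lib.QuadChar.Frob
import Fermat.Agent.S52lib.Irr3.Main

set_option autoImplicit false

noncomputable section

namespace Fermat.Agent.S52lib.QuadChar

/-- helper4's input `Irr3.QuadCharThree` holds. -/
theorem quadCharThree : Fermat.Agent.S52lib.Irr3.QuadCharThree := by
  intro G _ h2 chi hopen hunr r hr hr3 A hA φ hφ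
  exact apply_eq_one_of_isFrobeniusAt h2 chi hopen hunr hr hr3 hA hφ

/-- **The local criterion, unconditional**: a semistable integral model with a prime `r ≡ 1 mod 3`
of non-split multiplicative reduction (`r ∣ Δ`, `-c₄c₆` a non-square mod `r`) has irreducible
mod-`3` representation. -/
theorem modRepIsIrreducible_three_of_nonsplit' (W : WeierstrassCurve ℤ) (hΔ : W.Δ ≠ 0)
    (hss : W.IsSemistableModel) {r : ℕ} (hr : r.Prime) (hr3 : r % 3 = 1)
    (hrΔ : (r : ℤ) ∣ W.Δ) (hns : ¬ IsSquare (((-(W.c₄ * W.c₆) : ℤ)) : ZMod r)) :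
    W.ModRepIsIrreducible 3 :=
  Fermat.Agent.S52lib.Irr3.modRepIsIrreducible_three_of_nonsplit W hΔ quadCharThree hss hr hr3
    hrΔ hns

end Fermat.Agent.S52lib.QuadChar
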